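import Fermat.Agent.RT.Glue.Core
import Fermat.Agent.GaloisReps.Matching
import Fermat.Agent.NewformLocal.Det
import Fermat.Agent.EC.FrobTrace.LinearAlgebra
import Fermat.Agent.Deform.Residual

/-!
# A lift of an absolutely irreducible residual representation from a model with congruent traces

Traces in `O` and a residual representation spanning the matrices give a normalised lift over `O`.
-/

set_option autoImplicit false
set_option linter.style.haveILetI false

noncomputable section

namespace Fermat.Agent.RT.Lifting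

open IsLocalRing Module
open Fermat.Agent.Deform Fermat.Agent.GaloisReps

variable {O : Type} [CommRing O] [IsDomain O] [IsDiscreteValuationRing O]
  [CharZero O]
  {p : ℕ} [Fact p.Prime] {M : ℕ} [NeZero M] (D : HeckeGaloisModel M p)
  (ιp : ℤ_[p] →+* O) (θ : FullHecke M →+* O)

/-- The matrices of the eigen-lattice, as a representation. -/
def eigenMatHom : Gal →* M2 O :=
  (LinearMap.toMatrixAlgEquiv (D.eigenBasis θ)).toMonoidHom.comp (D.eigenAction ιp θ)

theorem eigenMatHom_apply (σ : Gal) : eigenMatHom D ιp θ σ = D.eigenMatrix ιp θ σ := rfl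

theorem trace_eigenMatHom (σ : Gal) :
    (eigenMatHom D ιp θ σ).trace = LinearMap.trace O _ (D.eigenAction ιp θ σ) :=
  (LinearMap.trace_eq_matrix_trace O (D.eigenBasis θ) _).symm

theorem det_eigenMatHom (σ : Gal) :
    (eigenMatHom D ιp θ σ).det = LinearMap.det (D.eigenAction ιp θ σ) :=
  LinearMap.det_toMatrix (D.eigenBasis θ) _

/-- Elements acting alike on the model modulo `p ^ n` have congruent traces. -/
theorem trace_congr_of_gal {n : ℕ} {g h : Gal}
    (hgh : (D.gal (g⁻¹ * h)).map (PadicInt.toZModPow n) = 1) :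
    (p : O) ^ n ∣ (eigenMatHom D ιp θ h).trace - (eigenMatHom D ιp θ g).trace := by
  rw [Matrix.trace_fin_two, Matrix.trace_fin_two, add_sub_add_comm]
  exact dvd_add (D.eigenMatrix_congr ιp θ hgh 0 0) (D.eigenMatrix_congr ιp θ hgh 1 1)

variable {W : Rigid O} {ρbar : ResidualGaloisRep (ResidueField O)}
  {bb : Basis (Fin 2) (ResidueField O) ρbar.V}

/-- Congruent Frobenius traces outside a finite set give congruent traces everywhere. -/
theorem residue_trace_eigenMatHom (hp : (p : O) ∈ maximalIdeal O) (hW : W.rb = matRes ρbar bb)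
    (hdet : (GaloisRepAdic.ofResidualGaloisRep ρbar).DetIsCyclotomic p)
    {S : Finset ℕ} {abar : ℕ → ResidueField O}
    (htr : ∀ ℓ : ℕ, ℓ.Prime → ℓ ∉ S → ∀ A : ValuationSubring (AlgebraicClosure ℚ),
      A.LiesOverPrime ℓ → ∀ σ : Gal, A.IsFrobeniusAt σ ℓ → (W.rb σ).trace = abar ℓ)
    (hcoef : ∀ (ℓ : ℕ) (hℓ : ℓ.Prime), ℓ ∉ S → ¬ ℓ ∣ M * p →
      residue O (θ (HeckeDuality.heckeOp M 2 ℓ hℓ)) = abar ℓ) (σ : Gal) :
    residue O (eigenMatHom D ιp θ σ).trace = (W.rb σ).trace := by
  have hk : (p : ResidueField O) = 0 := by rw [← map_natCast (residue O), residue_eq_zero_iff]; exact hp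
  obtain ⟨F, hF, hlev⟩ := D.gal_continuous 1
  obtain ⟨F', hF', hbar'⟩ := ρbar.factorsThroughFiniteLevel
  obtain ⟨ℓ, hℓ, hℓS, A, hA, s, hs, i, hi⟩ :=
    frobeniusDensity (F ⊔ F') inferInstance σ (S ∪ (M * p).primeFactors)
  rw [Finset.mem_union, not_or, Nat.mem_primeFactors] at hℓS
  obtain ⟨hℓS, hℓM⟩ := hℓS
  have hℓMp : ¬ ℓ ∣ M * p := fun h =>
    hℓM ⟨hℓ, h, mul_ne_zero (NeZero.ne M) (Fact.out : p.Prime).ne_zero⟩
  have hfix := inv_mul_fixes (g := s ^ i) (h := σ) (fun x hx => (hi x hx).symm)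
  -- the side of the model
  have h1 : residue O (eigenMatHom D ιp θ σ).trace =
      residue O (eigenMatHom D ιp θ (s ^ i)).trace := by
    rw [← sub_eq_zero, ← map_sub, residue_eq_zero_iff]
    obtain ⟨c, hc⟩ := trace_congr_of_gal D ιp θ (n := 1) (g := s ^ i) (h := σ)
      (hlev _ fun x hx => hfix x ((le_sup_left : F ≤ F ⊔ F') hx))
    rw [hc, pow_one]
    exact Ideal.mul_mem_right _ _ hp
  rw [h1, trace_eigenMatHom, map_pow, trace_pow_of_charpoly (D.finrank_eigenspace_domain θ) _ _ ℓ
    (D.charpoly_eigenAction_frobenius ιp θ frobeniusDensity hp hℓ hℓMp hA hs) i,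
    GaloisReps.map_powerTrace, map_natCast, hcoef ℓ hℓ hℓS hℓMp]
  -- the residual side
  have hσ : ρbar.ρ σ = ρbar.ρ (s ^ i) := by
    rw [← mul_inv_cancel_left (s ^ i) σ, map_mul,
      hbar' _ fun x hx => hfix x ((le_sup_right : F' ≤ F ⊔ F') hx), mul_one]
  have htrW : ∀ τ, (W.rb τ).trace = LinearMap.trace (ResidueField O) ρbar.V (ρbar.ρ τ) :=
    fun τ => by rw [hW]; exact (LinearMap.trace_eq_matrix_trace _ bb _).symm
  have hds : LinearMap.det (ρbar.ρ s) = (ℓ : ResidueField O) := by
    have h := hdet.2 1 s ℓ fun μ hμ => frobenius_apply_root hA hℓ hs hμ fun h =>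
      hℓMp (dvd_mul_of_dvd_right (hℓ.dvd_of_dvd_pow h) M)
    rw [pow_one, hk, Ideal.span_singleton_eq_bot.mpr rfl, Ideal.mem_bot, sub_eq_zero] at h
    exact h
  rw [htrW, hσ, map_pow, trace_pow_of_charpoly ρbar.finrank_eq _ (abar ℓ) ℓ]
  rw [EC.FrobTrace.charpoly_of_finrank_eq_two ρbar.finrank_eq, ← htrW,
    htr ℓ hℓ hℓS A hA s hs, hds]

variable [IsAdicComplete (maximalIdeal O) O]

/-- The normalised lift with the traces and determinants of the eigen-lattice. -/
theorem exists_normal_lift_of_model (hp : (p : O) ∈ maximalIdeal O) (hp2 : p ≠ 2)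
    (hW : W.rb = matRes ρbar bb) (habs : ρbar.IsAbsolutelyIrreducible) (hO : IsResAlg O O)
    (hres : ∀ σ, residue O (eigenMatHom D ιp θ σ).trace = (W.rb σ).trace) :
    ∃ r : Gal →* M2 O, IsCont r ∧ Lifts W hO r ∧ IsNormal W r ∧
      (∀ σ, (r σ).trace = (eigenMatHom D ιp θ σ).trace) ∧
      (∀ σ, (r σ).det = (eigenMatHom D ιp θ σ).det) ∧
      ∀ σ, eigenMatHom D ιp θ σ = 1 → r σ = 1 := by
  have h2 : IsUnit (2 : O) := by
    by_contra h2
    obtain ⟨k, hk⟩ := (Fact.out : p.Prime).odd_of_ne_two hp2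
    refine (maximalIdeal.isMaximal O).ne_top ((Ideal.eq_top_iff_one _).2 ?_)
    have h1 := sub_mem hp (Ideal.mul_mem_right (k : O) _ (show (2 : O) ∈ maximalIdeal O from h2))
    rw [hk] at h1
    simpa using h1
  have hinj : Function.Injective (algebraMap O (FractionRing O)) :=
    IsFractionRing.injective O (FractionRing O)
  obtain ⟨R, hR, hRtr, hRdet, hRone, hRI⟩ := Glue.exists_glue (A := O)
    (fun _ : Unit => FractionRing O) (fun _ => algebraMap O (FractionRing O))
    (fun _ => mapM (algebraMap O (FractionRing O)) (eigenMatHom D ιp θ))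
    (fun σ => (eigenMatHom D ιp θ σ).trace) W.rb h2
    (fun x hx => hinj ((hx ()).trans (map_zero _).symm))
    (fun _ σ => (AddMonoidHom.map_trace (algebraMap O (FractionRing O)).toAddMonoidHom _).symm)
    (fun σ => (hres σ).symm)
    (by rw [hW]; exact span_matrix_eq_top ρbar habs bb)
  have hcont : IsCont R := by
    intro n
    obtain ⟨L, hL, hlev⟩ := D.gal_continuous n
    refine ⟨L, hL, fun σ hσ i j => hRI _ σ (fun g => ?_) i j⟩
    have h1 : (D.gal (g⁻¹ * (σ * g))).map (PadicInt.toZModPow n) = 1 := by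
      have h : (PadicInt.toZModPow n).mapMatrix (D.gal σ) = 1 := hlev σ hσ
      show (PadicInt.toZModPow n).mapMatrix _ = 1
      rw [map_mul, map_mul, map_mul, map_mul, h, one_mul, ← map_mul, ← map_mul, inv_mul_cancel,
        map_one, map_one]
    obtain ⟨c, hc⟩ := trace_congr_of_gal D ιp θ h1
    rw [hc]
    exact Ideal.mul_mem_right _ _ (Ideal.pow_mem_pow hp n)
  have hl : Lifts W hO R := by
    haveI := hO.isLocalHom
    refine (lifts_iff hO R).mpr ?_
    ext σ i j
    rw [mapM_apply, mapM_apply, ← hR σ]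
    show residue O (R σ i j) = ResidueField.map (algebraMap O O) (residue O (R σ i j))
    rw [ResidueField.map_residue, Algebra.algebraMap_self, RingHom.id_apply]
  obtain ⟨P, hPl, hPn⟩ := exists_normal hl
  refine ⟨conjM P R, hcont.conj P, hPl, hPn, fun σ => ?_, fun σ => ?_, fun σ h => ?_⟩
  · rw [conjM_apply, Matrix.trace_units_conj']
    exact hRtr σ
  · rw [conjM_apply, Matrix.det_units_conj']
    refine hinj ((hRdet () σ).trans ?_)
    exact ((algebraMap O (FractionRing O)).map_det _).symm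
  · have h1 : (R σ).map (algebraMap O (FractionRing O)) = 1 := (hRone () σ).mpr (by
      show (algebraMap O (FractionRing O)).mapMatrix (eigenMatHom D ιp θ σ) = 1
      rw [h, map_one])
    have h2 : R σ = 1 := by
      refine Matrix.map_injective hinj ?_
      show (R σ).map _ = (1 : M2 O).map _
      rw [h1, Matrix.map_one _ (map_zero _) (map_one _)]
    rw [conjM_apply, h2, mul_one, Units.inv_mul]

end Fermat.Agent.RT.Lifting
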