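import Fermat.Agent.GaloisReps.Characters
import Fermat.Agent.Newforms.Newform

/-!
# The character of a newform takes values in a ring containing its good coefficients
-/

set_option autoImplicit false

noncomputable section

namespace Fermat.Agent.RT.Lifting

open CongruenceSubgroup ModularFormClass Fermat.Agent.GaloisReps

/-- If `a` gives the coefficients of a newform at the good primes, its whole system of eigenvalues
has values in `O`: at the bad primes they are `0` or `±1`. -/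
theorem exists_newform_char {O : Type} [CommRing O] (ι : O →+* ℂ) (hι : Function.Injective ι)
    {M : ℕ} [NeZero M] {g : CuspForm (Gamma0 M) 2} (hg : g.IsNewform) (a : ℕ → O)
    (ha : ∀ ℓ : ℕ, ℓ.Prime → ¬ ℓ ∣ M → qCoeff g ℓ = ι (a ℓ)) :
    ∃ θ : FullHecke M →+* O, ∀ (ℓ : ℕ) (hℓ : ℓ.Prime),
      ι (θ (HeckeDuality.heckeOp M 2 ℓ hℓ)) = qCoeff g ℓ := by
  obtain ⟨θ₀, hθ₀⟩ := exists_eigenform_character hg.1
  let θC : FullHecke M →+* ℂ := (algebraMap (integralClosure ℤ ℂ) ℂ).comp θ₀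
  have hop : ∀ (ℓ : ℕ) (hℓ : ℓ.Prime), θC (HeckeDuality.heckeOp M 2 ℓ hℓ) ∈ ι.range := by
    intro ℓ hℓ
    rw [show θC (HeckeDuality.heckeOp M 2 ℓ hℓ) = qCoeff g ℓ from hθ₀ ℓ hℓ]
    by_cases hℓM : ℓ ∣ M
    · obtain ⟨h1, h2⟩ := Newforms.newformBadPrimeCoeff M g hg ℓ hℓ hℓM
      by_cases hsq : ℓ ^ 2 ∣ M
      · rw [h2 hsq]
        exact zero_mem _
      · rcases sq_eq_one_iff.mp (h1 hsq) with h | h
        · rw [h]
          exact one_mem _
        · rw [h]
          exact neg_mem (one_mem _)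
    · exact ⟨a ℓ, (ha ℓ hℓ hℓM).symm⟩
  have hall : ∀ t : FullHecke M, θC t ∈ ι.range := by
    rintro ⟨t, ht⟩
    induction ht using Algebra.adjoin_induction with
    | mem x hx =>
      rcases hx with ⟨ℓ, hℓ, hℓM, -, rfl⟩ | ⟨q, hqM, hq, -, rfl⟩
      · have h := hop ℓ hℓ
        rwa [show HeckeDuality.heckeOp M 2 ℓ hℓ = ⟨CuspForm.heckeTLin 2 hℓ hℓM, _⟩ from
          Subtype.ext (by rw [HeckeDuality.heckeOp, dif_neg hℓM]; rfl)] at h
      · have h := hop q hq
        rwa [show HeckeDuality.heckeOp M 2 q hq = ⟨CuspForm.heckeULin 2 hqM, _⟩ from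
          Subtype.ext (by rw [HeckeDuality.heckeOp, dif_pos hqM]; rfl)] at h
    | algebraMap r =>
      rw [show (⟨algebraMap ℤ _ r, _⟩ : FullHecke M) = algebraMap ℤ (FullHecke M) r from rfl,
        eq_intCast, map_intCast]
      exact intCast_mem _ r
    | add x y hx hy hx' hy' =>
      rw [show (⟨x + y, _⟩ : FullHecke M) = ⟨x, hx⟩ + ⟨y, hy⟩ from rfl, map_add]
      exact add_mem hx' hy'
    | mul x y hx hy hx' hy' =>
      rw [show (⟨x * y, _⟩ : FullHecke M) = ⟨x, hx⟩ * ⟨y, hy⟩ from rfl, map_mul]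
      exact mul_mem hx' hy'
  choose θ hθ using hall
  refine ⟨{ toFun := θ
            map_one' := hι (by rw [hθ, map_one, map_one])
            map_mul' := fun x y => hι (by rw [hθ, map_mul, map_mul, hθ, hθ])
            map_zero' := hι (by rw [hθ, map_zero, map_zero])
            map_add' := fun x y => hι (by rw [hθ, map_add, map_add, hθ, hθ]) }, fun ℓ hℓ => ?_⟩
  show ι (θ _) = _
  rw [hθ]
  exact hθ₀ ℓ hℓ

end Fermat.Agent.RT.Lifting
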