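import Fermat.Agent.RT.Lifting.Interface
import Fermat.Agent.GaloisReps.CoeffExt
import Fermat.Agent.NewformLocal.Oldness
import Fermat.Agent.HeckeDuality.Eigenform

/-!
# `SystemExistsProperty`: a congruent system for the given embedding at the minimal level

A residual character of the Hecke algebra lifts to a point over `O` of `O ⊗ 𝕋`; its points are
systems of newforms of level dividing the level, so they have values in `O`.
-/

set_option autoImplicit false
set_option linter.style.haveILetI false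

noncomputable section

namespace Fermat.Agent.RT.Lifting

open IsLocalRing Module CongruenceSubgroup ModularFormClass
open Fermat.Agent.GaloisReps
open scoped TensorProduct

/-- A complex character of the partial Hecke algebra is the system of a newform of level dividing
the level. -/
theorem exists_newform_of_char {N : ℕ} [NeZero N] (S : Set ℕ)
    (χ : CuspForm.heckeAlgebra N 2 S →+* ℂ) :
    ∃ (M : ℕ) (g : CuspForm (Gamma0 M) 2), M ∣ N ∧ g.IsNewform ∧
      ∀ (ℓ : ℕ) (hℓ : ℓ.Prime) (hℓN : ¬ ℓ ∣ N) (hℓS : ℓ ∉ S),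
        qCoeff g ℓ = χ (CuspForm.heckeAlgebra.T hℓ hℓN hℓS) := by
  obtain ⟨θ, hθ⟩ := exists_extend_character S χ
  obtain ⟨f, hf0, hf⟩ := NewformLocal.exists_eigen_of_character θ
  obtain ⟨-, hnorm, hcoeff⟩ := HeckeDuality.isNormalizedEigenform_of_eigen hf0
    (fun ℓ => if hℓ : ℓ.Prime then θ (HeckeDuality.heckeOp N 2 ℓ hℓ) else 0)
    (fun ℓ hℓ => by simp only [dif_pos hℓ]; exact hf _)
  obtain ⟨M, g, hMN, hg, hgf⟩ := Newforms.exists_newform hnorm
  refine ⟨M, g, hMN, hg, fun ℓ hℓ hℓN hℓS => ?_⟩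
  rw [hgf ℓ hℓ hℓN, hcoeff ℓ hℓ, dif_pos hℓ, ← toFull_T hℓ hℓN hℓS, hθ]

variable {O : Type} [CommRing O] [IsDomain O] [IsDiscreteValuationRing O]
  [IsAdicComplete (maximalIdeal O) O]

set_option backward.isDefEq.respectTransparency false in
/-- If every complex character of `A` has values in `O`, every residual character comes from one
with values in `O`. -/
theorem exists_char_residue {A : Type} [CommRing A] [Module.Finite ℤ A] [IsAddTorsionFree A]
    (θbar : A →+* ResidueField O) (ι : O →+* ℂ) (hι : Function.Injective ι)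
    (hval : ∀ ψ : A →+* ℂ, ∀ a, ψ a ∈ ι.range) :
    ∃ χ : A →+* O, ∀ a, residue O (χ a) = θbar a := by
  classical
  have : CharZero O := RingHom.charZero ι
  have hfreeA : Module.Free ℤ A := Module.free_of_finite_type_torsion_free'
  let ev : O ⊗[ℤ] A →ₐ[O] ResidueField O :=
    Algebra.TensorProduct.lift (Algebra.ofId O (ResidueField O)) θbar.toIntAlgHom
      fun _ _ => Commute.all _ _
  have : (RingHom.ker (ev : O ⊗[ℤ] A →+* ResidueField O)).IsPrime := RingHom.ker_isPrime _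
  obtain ⟨P, hP, hPM⟩ := Ideal.exists_minimalPrimes_le (I := (⊥ : Ideal (O ⊗[ℤ] A)))
    (J := RingHom.ker (ev : O ⊗[ℤ] A →+* ResidueField O)) bot_le
  have hPprime : P.IsPrime := hP.1.1
  have hinjB : Function.Injective (algebraMap O ((O ⊗[ℤ] A) ⧸ P)) := by
    refine (injective_iff_map_eq_zero _).mpr fun c hc => by_contra fun h0 => ?_
    rw [IsScalarTower.algebraMap_apply O (O ⊗[ℤ] A) ((O ⊗[ℤ] A) ⧸ P),
      Ideal.Quotient.algebraMap_eq, Ideal.Quotient.eq_zero_iff_mem] at hc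
    refine Set.disjoint_left.mp (Ideal.disjoint_nonZeroDivisors_of_mem_minimalPrimes hP) hc ?_
    refine mem_nonZeroDivisors_iff_right.mpr fun x hx => ?_
    have h1 : c • x = 0 := (Algebra.smul_def (R := O) (A := O ⊗[ℤ] A) c x).trans ((mul_comm _ _).trans hx)
    exact (smul_eq_zero.mp h1).resolve_left h0
  have : Module.IsTorsionFree O ((O ⊗[ℤ] A) ⧸ P) :=
    Module.isTorsionFree_iff_algebraMap_injective.mpr hinjB
  have : Algebra.IsAlgebraic O ((O ⊗[ℤ] A) ⧸ P) := Algebra.IsIntegral.isAlgebraic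
  letI : Algebra O ℂ := ι.toAlgebra
  have : Module.IsTorsionFree O ℂ := Module.isTorsionFree_iff_algebraMap_injective.mpr hι
  let jB : ((O ⊗[ℤ] A) ⧸ P) →ₐ[O] ℂ :=
    IsAlgClosed.lift (R := O) (S := (O ⊗[ℤ] A) ⧸ P) (M := ℂ)
  let inc : A →+* (O ⊗[ℤ] A) ⧸ P :=
    (Ideal.Quotient.mk P).comp Algebra.TensorProduct.includeRight.toRingHom
  have hrange : ∀ b, ∃ o : O, ι o = jB b := by
    intro b
    obtain ⟨x, rfl⟩ := Ideal.Quotient.mk_surjective b
    induction x using TensorProduct.induction_on with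
    | zero => exact ⟨0, by rw [map_zero, map_zero, map_zero]⟩
    | add x y hx hy =>
      obtain ⟨u, hu⟩ := hx
      obtain ⟨v, hv⟩ := hy
      exact ⟨u + v, by rw [map_add, map_add, map_add, hu, hv]⟩
    | tmul c a =>
      obtain ⟨v, hv⟩ := hval ((jB : ((O ⊗[ℤ] A) ⧸ P) →+* ℂ).comp inc) a
      refine ⟨c * v, ?_⟩
      have e : Ideal.Quotient.mk P (c ⊗ₜ[ℤ] a) = algebraMap O _ c * inc a := by
        rw [IsScalarTower.algebraMap_apply O (O ⊗[ℤ] A) ((O ⊗[ℤ] A) ⧸ P),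
          Ideal.Quotient.algebraMap_eq]
        show _ = Ideal.Quotient.mk P _ * Ideal.Quotient.mk P _
        rw [← map_mul]
        simp [Algebra.TensorProduct.algebraMap_apply]
      rw [e, map_mul, map_mul, AlgHom.commutes, hv]
      rfl
  choose β hβ using hrange
  let βh : ((O ⊗[ℤ] A) ⧸ P) →ₐ[O] O :=
    { toFun := β
      map_one' := hι (by rw [hβ, map_one, map_one])
      map_mul' := fun x y => hι (by rw [hβ, map_mul, map_mul, hβ, hβ])
      map_zero' := hι (by rw [hβ, map_zero, map_zero])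
      map_add' := fun x y => hι (by rw [hβ, map_add, map_add, hβ, hβ])
      commutes' := fun c => hι (by rw [hβ, AlgHom.commutes]; rfl) }
  let evB : ((O ⊗[ℤ] A) ⧸ P) →ₐ[O] ResidueField O :=
    Ideal.Quotient.liftₐ P ev fun x hx => hPM hx
  let g : ((O ⊗[ℤ] A) ⧸ P) →ₐ[O] ResidueField O := (Algebra.ofId O (ResidueField O)).comp βh
  have : IsLocalRing ((O ⊗[ℤ] A) ⧸ P) := GaloisReps.isLocalRing_of_finite_domain O ((O ⊗[ℤ] A) ⧸ P)
  have heq : ∀ x, evB x = g x := fun x => by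
    obtain ⟨c, hc⟩ := residue_surjective (evB x - g x)
    obtain ⟨d, hd⟩ := residue_surjective (g x)
    have h1 : g (x - algebraMap O _ d) = 0 := by
      rw [map_sub, AlgHom.commutes, ResidueField.algebraMap_eq, hd, sub_self]
    have h2 : evB (algebraMap O _ c - (x - algebraMap O _ d)) = 0 := by
      simp only [map_sub, AlgHom.commutes, ResidueField.algebraMap_eq, hc, hd, sub_self]
    have n1 : x - algebraMap O _ d ∈ nonunits ((O ⊗[ℤ] A) ⧸ P) := fun hu =>
      not_isUnit_zero (h1 ▸ hu.map g)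
    have n2 : algebraMap O _ c - (x - algebraMap O _ d) ∈ nonunits ((O ⊗[ℤ] A) ⧸ P) := fun hu =>
      not_isUnit_zero (h2 ▸ hu.map evB)
    have n3 := IsLocalRing.nonunits_add n2 n1
    rw [sub_add_cancel] at n3
    have hc0 : residue O c = 0 := by
      rw [residue_eq_zero_iff]
      exact fun hu => n3 (hu.map (algebraMap O ((O ⊗[ℤ] A) ⧸ P)))
    rw [hc0] at hc
    exact sub_eq_zero.mp hc.symm
  refine ⟨(βh : ((O ⊗[ℤ] A) ⧸ P) →+* O).comp inc, fun a => ?_⟩
  refine (heq (inc a)).symm.trans ?_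
  show ev ((1 : O) ⊗ₜ[ℤ] a) = θbar a
  simp [ev]

/-- **`SystemExistsProperty`**. -/
theorem systemExistsProperty {S : Finset ℕ} {abar : ℕ → ResidueField O} {N₀ : ℕ}
    (hN₀ : N₀ ≠ 0) (hS : ∀ q : ℕ, q.Prime → q ∣ N₀ → q ∈ S)
    (hcong : IsCongruentLevel S abar N₀) : SystemExistsProperty S abar N₀ := by
  classical
  intro ι hι hcoef
  haveI : NeZero N₀ := ⟨hN₀⟩
  let A := CuspForm.heckeAlgebra N₀ 2 (↑S : Set ℕ)
  have : Module.Finite ℤ A := IntegralStructure.heckeAlgebra_finite N₀ 2 _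
  obtain ⟨g₀, hg₀, φ, hφ⟩ := hcong
  obtain ⟨θ₀, hθ₀⟩ := exists_eigenform_character hg₀
  let ψbar : A →+* AlgebraicClosure (ResidueField O) :=
    φ.comp (θ₀.comp (toFull (↑S : Set ℕ)).toRingHom)
  have hψ : ∀ (ℓ : ℕ) (hℓ : ℓ.Prime) (hℓN : ¬ ℓ ∣ N₀) (hℓS : ℓ ∉ (↑S : Set ℕ)),
      ψbar (CuspForm.heckeAlgebra.T hℓ hℓN hℓS) = algebraMap _ _ (abar ℓ) := by
    intro ℓ hℓ hℓN hℓS
    show φ (θ₀ (toFull _ _)) = _
    rw [toFull_T]
    exact hφ ℓ hℓ (fun h => hℓS (Finset.mem_coe.mpr h)) _ (hθ₀ ℓ hℓ)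
  have hmem : ∀ t : A, ∃ c, algebraMap (ResidueField O) _ c = ψbar t := by
    rintro ⟨t, ht⟩
    induction ht using Algebra.adjoin_induction with
    | mem x hx =>
      rcases hx with ⟨ℓ, hℓ, hℓN, hℓS, rfl⟩ | ⟨q, hqN, hq, hqS, rfl⟩
      · exact ⟨abar ℓ, (hψ ℓ hℓ hℓN hℓS).symm⟩
      · exact absurd (Finset.mem_coe.mpr (hS q hq hqN)) hqS
    | algebraMap r =>
      exact ⟨(r : ResidueField O), by
        rw [show (⟨algebraMap ℤ _ r, _⟩ : A) = algebraMap ℤ A r from rfl, map_intCast,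
          eq_intCast, map_intCast]⟩
    | add x y hx hy hx' hy' =>
      obtain ⟨u, hu⟩ := hx'
      obtain ⟨v, hv⟩ := hy'
      exact ⟨u + v, by
        rw [show (⟨x + y, _⟩ : A) = ⟨x, hx⟩ + ⟨y, hy⟩ from rfl, map_add, map_add, hu, hv]⟩
    | mul x y hx hy hx' hy' =>
      obtain ⟨u, hu⟩ := hx'
      obtain ⟨v, hv⟩ := hy'
      exact ⟨u * v, by
        rw [show (⟨x * y, _⟩ : A) = ⟨x, hx⟩ * ⟨y, hy⟩ from rfl, map_mul, map_mul, hu, hv]⟩
  choose tb htb using hmem
  have hinj := (algebraMap (ResidueField O) (AlgebraicClosure (ResidueField O))).injective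
  let θbar : A →+* ResidueField O :=
    { toFun := tb
      map_one' := hinj (by rw [htb, map_one, map_one])
      map_mul' := fun x y => hinj (by rw [htb, map_mul, map_mul, htb, htb])
      map_zero' := hinj (by rw [htb, map_zero, map_zero])
      map_add' := fun x y => hinj (by rw [htb, map_add, map_add, htb, htb]) }
  have hval : ∀ ψ : A →+* ℂ, ∀ t, ψ t ∈ ι.range := by
    intro ψ
    obtain ⟨M, g, hMN, hg, hgψ⟩ := exists_newform_of_char (↑S : Set ℕ) ψ
    haveI : NeZero M := ⟨fun h => hN₀ (Nat.eq_zero_of_zero_dvd (h ▸ hMN))⟩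
    rintro ⟨t, ht⟩
    induction ht using Algebra.adjoin_induction with
    | mem x hx =>
      rcases hx with ⟨ℓ, hℓ, hℓN, hℓS, rfl⟩ | ⟨q, hqN, hq, hqS, rfl⟩
      · obtain ⟨c, hc⟩ := hcoef M g hg hMN ℓ hℓ fun h => hℓN (h.trans hMN)
        exact ⟨c, hc.trans (hgψ ℓ hℓ hℓN hℓS)⟩
      · exact absurd (Finset.mem_coe.mpr (hS q hq hqN)) hqS
    | algebraMap r =>
      rw [show (⟨algebraMap ℤ _ r, _⟩ : A) = algebraMap ℤ A r from rfl, eq_intCast, map_intCast]
      exact intCast_mem _ r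
    | add x y hx hy hx' hy' =>
      rw [show (⟨x + y, _⟩ : A) = ⟨x, hx⟩ + ⟨y, hy⟩ from rfl, map_add]
      exact add_mem hx' hy'
    | mul x y hx hy hx' hy' =>
      rw [show (⟨x * y, _⟩ : A) = ⟨x, hx⟩ * ⟨y, hy⟩ from rfl, map_mul]
      exact mul_mem hx' hy'
  obtain ⟨χ, hχ⟩ := exists_char_residue θbar ι hι hval
  obtain ⟨M, g, hMN, hg, hgχ⟩ := exists_newform_of_char (↑S : Set ℕ) (ι.comp χ)
  haveI : NeZero M := ⟨fun h => hN₀ (Nat.eq_zero_of_zero_dvd (h ▸ hMN))⟩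
  have hex : ∀ ℓ : ℕ, ∃ c : O, ℓ.Prime → ¬ ℓ ∣ M → ι c = qCoeff g ℓ := fun ℓ => by
    by_cases h : ℓ.Prime ∧ ¬ ℓ ∣ M
    · obtain ⟨c, hc⟩ := hcoef M g hg hMN ℓ h.1 h.2
      exact ⟨c, fun _ _ => hc⟩
    · exact ⟨0, fun h1 h2 => absurd ⟨h1, h2⟩ h⟩
  choose a ha using hex
  refine ⟨a, ⟨M, inferInstance, g, hg, hMN, fun ℓ hℓ hℓM => (ha ℓ hℓ hℓM).symm⟩,
    fun ℓ hℓ hℓS => ?_⟩
  have hℓN : ¬ ℓ ∣ N₀ := fun h => hℓS (hS ℓ hℓ h)
  have hℓS' : ℓ ∉ (↑S : Set ℕ) := fun h => hℓS (Finset.mem_coe.mp h)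
  have e : a ℓ = χ (CuspForm.heckeAlgebra.T hℓ hℓN hℓS') :=
    hι ((ha ℓ hℓ fun h => hℓN (h.trans hMN)).trans (hgχ ℓ hℓ hℓN hℓS'))
  rw [e, hχ]
  refine hinj ?_
  show algebraMap _ _ (tb _) = _
  rw [htb, hψ]

/-- `SystemExistsProperty` for a residual datum. -/
theorem IsResidualDatum.systemExists {p : ℕ} {W : Deform.Rigid O}
    {ρbar : ResidualGaloisRep (ResidueField O)} {bb : Basis (Fin 2) (ResidueField O) ρbar.V}
    {S : Finset ℕ} {abar : ℕ → ResidueField O} {N₀ : ℕ}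
    (hd : IsResidualDatum p W ρbar bb S abar N₀) : SystemExistsProperty S abar N₀ :=
  systemExistsProperty hd.squarefree.ne_zero hd.mem_S_level hd.congruent

end Fermat.Agent.RT.Lifting
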