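import Fermat.Agent.RT.Lifting.Interface
import Fermat.Agent.RT.Lifting.Points.Attached
import Fermat.Agent.RT.Lifting.Points.NewformChar
import Fermat.Agent.GaloisReps.UnipotentModel
import Fermat.Agent.GaloisReps.OfInjective
import Fermat.Agent.RedTorsion.Injective

/-!
# `TypeLiftProperty`: the lifts attached to congruent systems

The newform representation has values in `O`, as all its eigenvalues lie there.
-/

set_option autoImplicit false
set_option linter.style.haveILetI false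

noncomputable section

namespace Fermat.Agent.RT.Lifting

open IsLocalRing Module CongruenceSubgroup ModularFormClass
open Fermat.Agent.Deform Fermat.Agent.GaloisReps Fermat.Agent.RT.Assembly

/-- The model of `J₀(M)` at `p`. -/
def pointModel (M p : ℕ) [NeZero M] [Fact p.Prime] : HeckeGaloisModel M p :=
  modelOfCongruence (congruenceProperty_of_injective (RedTorsion.injectiveOnTorsion M))

theorem eigenMatHom_eq_one {O : Type} [CommRing O] [IsDomain O] [IsDiscreteValuationRing O]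
    [CharZero O] {p : ℕ} [Fact p.Prime] {M : ℕ} [NeZero M] (D : HeckeGaloisModel M p)
    (ιp : ℤ_[p] →+* O) (θ : FullHecke M →+* O) {σ : Gal} (h : D.gal σ = 1) :
    eigenMatHom D ιp θ σ = 1 := by
  rw [eigenMatHom_apply, HeckeGaloisModel.eigenMatrix]
  have h1 : D.eigenAction ιp θ σ = 1 := by
    refine LinearMap.ext fun v => Subtype.ext ?_
    rw [HeckeGaloisModel.coe_eigenAction, h, Matrix.map_one ιp (map_zero ιp) (map_one ιp),
      Matrix.one_mulVec, Module.End.one_apply]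
  rw [h1, LinearMap.toMatrix_one]

theorem trace_eigenMatHom_eq_two {O : Type} [CommRing O] [IsDomain O] [IsDiscreteValuationRing O]
    [CharZero O] {p : ℕ} [Fact p.Prime] {M : ℕ} [NeZero M] (D : HeckeGaloisModel M p)
    (ιp : ℤ_[p] →+* O) (θ : FullHecke M →+* O) {σ : Gal} (h : (D.gal σ - 1) ^ 2 = 0) :
    (eigenMatHom D ιp θ σ).trace = 2 := by
  have h0 : (D.eigenAction ιp θ σ - 1) ^ 2 = 0 := by
    refine LinearMap.ext fun v => Subtype.ext ?_
    have h1 := congrArg ιp.mapMatrix h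
    rw [pow_two, map_mul, map_sub, map_one, map_zero, RingHom.mapMatrix_apply] at h1
    have h2 := congrArg (fun m : Matrix (Fin D.d) (Fin D.d) O => m.mulVec v.1) h1
    simp only [Matrix.zero_mulVec, ← Matrix.mulVec_mulVec, Matrix.sub_mulVec,
      Matrix.one_mulVec, Matrix.mulVec_sub] at h2
    simp only [pow_two, Module.End.mul_apply, LinearMap.sub_apply, Module.End.one_apply,
      AddSubgroupClass.coe_sub, HeckeGaloisModel.coe_eigenAction, LinearMap.zero_apply,
      ZeroMemClass.coe_zero, Matrix.mulVec_sub] at h2 ⊢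
    exact h2
  have h1 := (LinearMap.isNilpotent_trace_of_isNilpotent
    (⟨2, h0⟩ : IsNilpotent (D.eigenAction ιp θ σ - 1))).eq_zero
  have h3 : LinearMap.trace O _ (D.eigenAction ιp θ σ - 1) =
      LinearMap.trace O _ (D.eigenAction ιp θ σ) -
        LinearMap.trace O _ (1 : Module.End O (eigenspace D.hecke θ)) :=
    map_sub (LinearMap.trace O (eigenspace D.hecke θ)) (D.eigenAction ιp θ σ) 1
  rw [h3, LinearMap.trace_one, D.finrank_eigenspace_domain θ, Nat.cast_ofNat, sub_eq_zero] at h1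
  rw [trace_eigenMatHom, h1]

variable {O : Type} [CommRing O] [IsDomain O] [IsDiscreteValuationRing O]
  [IsAdicComplete (maximalIdeal O) O] [Finite (ResidueField O)] [CharZero O]
  {p : ℕ} [Fact p.Prime] {W : Rigid O} {ρbar : ResidualGaloisRep (ResidueField O)}
  {bb : Basis (Fin 2) (ResidueField O) ρbar.V} {S : Finset ℕ} {abar : ℕ → ResidueField O}
  {N₀ : ℕ}

/-- **`TypeLiftProperty`**, given unipotence at the primes exactly dividing the level. -/
theorem typeLiftProperty (hd : IsResidualDatum p W ρbar bb S abar N₀)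
    (hU : ∀ (M : ℕ) [NeZero M] (q : ℕ), q.Prime → q ∣ M → ¬ q ^ 2 ∣ M → TorsionUnipotentAt M q) :
    TypeLiftProperty p W ρbar S abar N₀ := by
  intro C good hC hPt ι hι L _ hLS hN₀ hgood hO a ha hares
  haveI := hO.isLocalHom
  obtain ⟨M, _, g, hg, hML, hga⟩ := ha
  obtain ⟨θ, hθ⟩ := exists_newform_char ι hι hg a hga
  have hp := hd.p_mem
  obtain ⟨ιp⟩ := exists_padicHom O hp
  have hθa : ∀ (ℓ : ℕ) (hℓ : ℓ.Prime), ¬ ℓ ∣ M → θ (HeckeDuality.heckeOp M 2 ℓ hℓ) = a ℓ :=
    fun ℓ hℓ hℓM => hι ((hθ ℓ hℓ).trans (hga ℓ hℓ hℓM))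
  let D := pointModel M p
  have hres := residue_trace_eigenMatHom D ιp θ hp hd.rb_eq hd.det hd.trace_frobenius
    fun ℓ hℓ hℓS hℓM => by
      rw [hθa ℓ hℓ fun h => hℓM (dvd_mul_of_dvd_left h p)]
      exact hares ℓ hℓ hℓS
  obtain ⟨r, hc, hl, hn, htr, hdet, hone⟩ :=
    exists_normal_lift_of_model D ιp θ hp hd.p_ne_two hd.rb_eq hd.irreducible hO hres
  have htr' : ∀ σ, LinearMap.trace O (toRep r hc).V ((toRep r hc).ρ σ) = (r σ).trace :=
    fun σ => by
      show LinearMap.trace O (Fin 2 → O) (Matrix.toLin' (r σ)) = _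
      exact Matrix.trace_toLin'_eq (r σ)
  have hdet' : (toRep r hc).DetIsCyclotomic p := by
    refine ⟨hp, fun n σ b hb => ?_⟩
    rw [show LinearMap.det ((toRep r hc).ρ σ) = (r σ).det from LinearMap.det_toLin' (r σ), hdet,
      det_eigenMatHom, Ideal.mem_span_singleton]
    push_cast
    exact D.det_eigenAction_congr ιp θ hp hb
  have hfrob : ∀ ℓ : ℕ, ℓ.Prime → ℓ ≠ p → ¬ ℓ ∣ M → ∀ A : ValuationSubring (AlgebraicClosure ℚ),
      A.LiesOverPrime ℓ → ∀ σ : Gal, A.IsFrobeniusAt σ ℓ → (r σ).trace = a ℓ := by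
    intro ℓ hℓ hℓp hℓM A hA σ hσ
    have hMp : ¬ ℓ ∣ M * p := fun h => (hℓ.dvd_mul.mp h).elim hℓM fun h' =>
      hℓp ((Nat.prime_dvd_prime_iff_eq hℓ Fact.out).mp h')
    rw [htr, trace_eigenMatHom, ← pow_one (D.eigenAction ιp θ σ),
      trace_pow_of_charpoly (D.finrank_eigenspace_domain θ) _ _ ℓ
        (D.charpoly_eigenAction_frobenius ιp θ frobeniusDensity hp hℓ hMp hA hσ) 1]
    exact hθa ℓ hℓ hℓM
  have hCρ : C (toRep r hc) := by
    refine hPt M g hg (hgood M hML) O (toRep r hc) ι hι ?_ hdet' fun ℓ hℓ hℓp hℓM A hA σ hσ => ?_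
    · refine residual_isEquiv_of_lifts hd.rb_eq hO (toRep r hc) (Pi.basisFun O (Fin 2)) ?_
      rw [matOf_toRep]
      exact hl
    · rw [htr', hfrob ℓ hℓ hℓp hℓM A hA σ hσ, hga ℓ hℓ hℓM]
  refine ⟨r, ⟨hc, hl, hn, hdet', ⟨O, inferInstance, inferInstance, inferInstance, inferInstance,
    AlgHom.id O O, r, hc, Function.injective_id, by ext σ i j; rfl, hCρ⟩, ?_, ?_⟩, ?_⟩
  · intro ℓ hℓ hℓp hℓL A hA τ hτ
    have hMp : ¬ ℓ ∣ M * p := fun h => (hℓ.dvd_mul.mp h).elim
      (fun h' => hℓL (Nat.mem_primeFactors.mpr ⟨hℓ, h'.trans hML, NeZero.ne L⟩))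
      fun h' => hℓp ((Nat.prime_dvd_prime_iff_eq hℓ Fact.out).mp h')
    exact hone τ (eigenMatHom_eq_one D ιp θ (D.gal_unramified ℓ hℓ hMp A hA τ hτ))
  · intro q hq hqp A hA τ hτ
    rw [Nat.mem_primeFactors] at hq
    obtain ⟨hq, hqN, -⟩ := hq
    rw [htr]
    by_cases hqM : q ∣ M
    · exact trace_eigenMatHom_eq_two D ιp θ (unipotentAt_modelOfCongruence _ hq hqp
        (hU M q hq hqM fun h => hN₀ q hq hqp hqN (h.trans hML)) A hA τ hτ)
    · rw [eigenMatHom_eq_one D ιp θ (D.gal_unramified q hq (fun h => (hq.dvd_mul.mp h).elim hqM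
        fun h' => hqp ((Nat.prime_dvd_prime_iff_eq hq Fact.out).mp h')) A hA τ hτ),
        Matrix.trace_one]
      norm_num
  · intro ℓ hℓ hℓS A hA σ hσ
    rw [Finset.mem_insert, not_or, Nat.mem_primeFactors] at hℓS
    exact hfrob ℓ hℓ hℓS.1 (fun h => hℓS.2 ⟨hℓ, h.trans hML, NeZero.ne L⟩) A hA σ hσ

end Fermat.Agent.RT.Lifting
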